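/-
P-FF, FF-G4 (row 622), helper54: the class-`C` calculus in valuation language (Mathlib only).

`A` a valuation subring of a field `K`, `v = A.valuation`, `R` a subring of `K`.
`Apx A R ℓ x φ`: for every `M` there is a polynomial `G` over `R` with
`v (φ s - G (x s)) ≤ v ℓ ^ M` for all parameters `s`.

Standing hypotheses `ApxHyp A R ℓ`: `R ⊆ A`, `R` is saturated in `A` (units of `A` lying in `R`
are units of `R`), `v ℓ < 1`, and rank one (`v a < 1 → v a ^ n ≤ v ℓ` for some `n`).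

Main results: `Apx.inv`, `Apx.comp`, `Apx.root`.
-/
import Mathlib

set_option autoImplicit false
set_option linter.unusedSectionVars false
set_option linter.unusedVariables false

noncomputable section

namespace Fermat.Agent.H54.FFApx

open MvPolynomial

variable {K : Type*} [Field K] (A : ValuationSubring K) (R : Subring K)

/-- standing hypotheses of the calculus -/
structure ApxHyp (ℓ : K) : Prop where
  sub : ∀ c : R, A.valuation (c : K) ≤ 1
  sat : ∀ c : R, A.valuation (c : K) = 1 → ∃ c' : R, (c' : K) = (c : K)⁻¹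
  lt : A.valuation ℓ < 1
  rank : ∀ a : K, A.valuation a < 1 → ∃ n : ℕ, A.valuation a ^ n ≤ A.valuation ℓ

/-- `φ` is an `ℓ`-adic limit of polynomials over `R` in the parameters `x`, uniformly in `s`. -/
def Apx (ℓ : K) {S σ : Type*} (x : S → σ → K) (φ : S → K) : Prop :=
  ∀ M : ℕ, ∃ G : MvPolynomial σ R,
    ∀ s, A.valuation (φ s - aeval (x s) G) ≤ A.valuation ℓ ^ M

variable {A R}

section basic

variable {σ : Type*}

theorem val_aeval_le_one (hR : ∀ c : R, A.valuation (c : K) ≤ 1) {u : σ → K}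
    (hu : ∀ i, A.valuation (u i) ≤ 1) (G : MvPolynomial σ R) :
    A.valuation (aeval u G) ≤ 1 := by
  induction G using MvPolynomial.induction_on with
  | C a =>
    rw [aeval_C]
    exact hR a
  | add p q hp hq =>
    rw [map_add]
    exact Valuation.map_add_le _ hp hq
  | mul_X p i hp =>
    rw [map_mul, aeval_X, Valuation.map_mul]
    exact mul_le_one' hp (hu i)

/-- Polynomials over `R ⊆ A` are `1`-Lipschitz on `A`-points, for any `A`-submodule `P`. -/
theorem aeval_sub_aeval_mem (hR : ∀ c : R, A.valuation (c : K) ≤ 1)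
    (P : K → Prop) (h0 : P 0) (hadd : ∀ a b, P a → P b → P (a + b))
    (hmul : ∀ a b, A.valuation a ≤ 1 → P b → P (a * b))
    {u u' : σ → K} (hu : ∀ i, A.valuation (u i) ≤ 1) (hu' : ∀ i, A.valuation (u' i) ≤ 1)
    (h : ∀ i, P (u i - u' i)) (G : MvPolynomial σ R) : P (aeval u G - aeval u' G) := by
  induction G using MvPolynomial.induction_on with
  | C a =>
    rw [aeval_C, aeval_C, sub_self]
    exact h0
  | add p q hp hq =>
    have : aeval u (p + q) - aeval u' (p + q) =
        (aeval u p - aeval u' p) + (aeval u q - aeval u' q) := by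
      rw [map_add, map_add]; ring
    rw [this]
    exact hadd _ _ hp hq
  | mul_X p i hp =>
    have : aeval u (p * X i) - aeval u' (p * X i) =
        u i * (aeval u p - aeval u' p) + aeval u' p * (u i - u' i) := by
      rw [map_mul, map_mul, aeval_X, aeval_X]; ring
    rw [this]
    exact hadd _ _ (hmul _ _ (hu i) hp) (hmul _ _ (val_aeval_le_one hR hu' p) (h i))

theorem aeval_sub_aeval_le (hR : ∀ c : R, A.valuation (c : K) ≤ 1)
    {u u' : σ → K} (hu : ∀ i, A.valuation (u i) ≤ 1) (hu' : ∀ i, A.valuation (u' i) ≤ 1)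
    (ε : A.ValueGroup) (h : ∀ i, A.valuation (u i - u' i) ≤ ε) (G : MvPolynomial σ R) :
    A.valuation (aeval u G - aeval u' G) ≤ ε := by
  refine aeval_sub_aeval_mem hR (fun z => A.valuation z ≤ ε) ?_ ?_ ?_ hu hu' h G
  · simp
  · intro a b ha hb
    exact Valuation.map_add_le _ ha hb
  · intro a b ha hb
    rw [Valuation.map_mul]
    calc A.valuation a * A.valuation b ≤ 1 * ε := mul_le_mul' ha hb
      _ = ε := one_mul _

theorem aeval_sub_aeval_lt (hR : ∀ c : R, A.valuation (c : K) ≤ 1)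
    {u u' : σ → K} (hu : ∀ i, A.valuation (u i) ≤ 1) (hu' : ∀ i, A.valuation (u' i) ≤ 1)
    (h : ∀ i, A.valuation (u i - u' i) < 1) (G : MvPolynomial σ R) :
    A.valuation (aeval u G - aeval u' G) < 1 := by
  refine aeval_sub_aeval_mem hR (fun z => A.valuation z < 1) ?_ ?_ ?_ hu hu' h G
  · simp
  · intro a b ha hb
    exact Valuation.map_add_lt _ ha hb
  · intro a b ha hb
    rw [Valuation.map_mul]
    calc A.valuation a * A.valuation b ≤ 1 * A.valuation b := mul_le_mul' ha le_rfl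
      _ = A.valuation b := one_mul _
      _ < 1 := hb

end basic

section closure

variable {ℓ : K} {S σ : Type*} {x : S → σ → K}

theorem pow_succ_le_pow (hℓ : A.valuation ℓ ≤ 1) (M : ℕ) :
    A.valuation ℓ ^ (M + 1) ≤ A.valuation ℓ ^ M := by
  rw [pow_succ]
  calc A.valuation ℓ ^ M * A.valuation ℓ ≤ A.valuation ℓ ^ M * 1 := mul_le_mul' le_rfl hℓ
    _ = _ := mul_one _

theorem pow_succ_le_self (hℓ : A.valuation ℓ ≤ 1) (M : ℕ) :
    A.valuation ℓ ^ (M + 1) ≤ A.valuation ℓ := by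
  rw [pow_succ]
  calc A.valuation ℓ ^ M * A.valuation ℓ ≤ 1 * A.valuation ℓ :=
        mul_le_mul' (pow_le_one' hℓ M) le_rfl
    _ = _ := one_mul _

theorem Apx.const (c : R) : Apx A R ℓ x (fun _ => (c : K)) := by
  intro M
  refine ⟨C c, fun s => ?_⟩
  rw [aeval_C]
  have : (algebraMap R K) c = (c : K) := rfl
  rw [this, sub_self]
  simp

theorem Apx.zero : Apx A R ℓ x (fun _ => (0 : K)) := by
  intro M
  refine ⟨0, fun s => ?_⟩
  simp

theorem Apx.coord (i : σ) : Apx A R ℓ x (fun s => x s i) := by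
  intro M
  refine ⟨X i, fun s => ?_⟩
  rw [aeval_X]
  simp

theorem Apx.add {φ ψ : S → K} (hφ : Apx A R ℓ x φ) (hψ : Apx A R ℓ x ψ) :
    Apx A R ℓ x (fun s => φ s + ψ s) := by
  intro M
  obtain ⟨G, hG⟩ := hφ M
  obtain ⟨H, hH⟩ := hψ M
  refine ⟨G + H, fun s => ?_⟩
  have : φ s + ψ s - aeval (x s) (G + H) = (φ s - aeval (x s) G) + (ψ s - aeval (x s) H) := by
    rw [map_add]; ring
  rw [this]
  exact Valuation.map_add_le _ (hG s) (hH s)

theorem Apx.neg {φ : S → K} (hφ : Apx A R ℓ x φ) : Apx A R ℓ x (fun s => - φ s) := by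
  intro M
  obtain ⟨G, hG⟩ := hφ M
  refine ⟨-G, fun s => ?_⟩
  have : - φ s - aeval (x s) (-G) = - (φ s - aeval (x s) G) := by
    rw [map_neg]; ring
  rw [this, Valuation.map_neg]
  exact hG s

theorem Apx.mul (hR : ∀ c : R, A.valuation (c : K) ≤ 1) (hx : ∀ s i, A.valuation (x s i) ≤ 1)
    {φ ψ : S → K} (hφ : Apx A R ℓ x φ) (hφi : ∀ s, A.valuation (φ s) ≤ 1)
    (hψ : Apx A R ℓ x ψ) : Apx A R ℓ x (fun s => φ s * ψ s) := by
  intro M
  obtain ⟨G, hG⟩ := hφ M
  obtain ⟨H, hH⟩ := hψ M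
  refine ⟨G * H, fun s => ?_⟩
  have : φ s * ψ s - aeval (x s) (G * H) =
      φ s * (ψ s - aeval (x s) H) + aeval (x s) H * (φ s - aeval (x s) G) := by
    rw [map_mul]; ring
  rw [this]
  refine Valuation.map_add_le _ ?_ ?_
  · rw [Valuation.map_mul]
    calc A.valuation (φ s) * A.valuation (ψ s - aeval (x s) H) ≤ 1 * A.valuation ℓ ^ M :=
          mul_le_mul' (hφi s) (hH s)
      _ = _ := one_mul _
  · rw [Valuation.map_mul]
    calc A.valuation (aeval (x s) H) * A.valuation (φ s - aeval (x s) G)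
        ≤ 1 * A.valuation ℓ ^ M := mul_le_mul' (val_aeval_le_one hR (hx s) H) (hG s)
      _ = _ := one_mul _

/-- a function that is `ℓ^M`-close to an approximable function for every `M` is approximable -/
theorem Apx.of_close {φ : S → K}
    (h : ∀ M : ℕ, ∃ ψ : S → K, Apx A R ℓ x ψ ∧
      ∀ s, A.valuation (φ s - ψ s) ≤ A.valuation ℓ ^ M) : Apx A R ℓ x φ := by
  intro M
  obtain ⟨ψ, hψ, hc⟩ := h M
  obtain ⟨G, hG⟩ := hψ M
  refine ⟨G, fun s => ?_⟩
  have : φ s - aeval (x s) G = (φ s - ψ s) + (ψ s - aeval (x s) G) := by ring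
  rw [this]
  exact Valuation.map_add_le _ (hc s) (hG s)

/-- integral-valued approximable functions -/
structure ApxInt (A : ValuationSubring K) (R : Subring K) (ℓ : K) {S σ : Type*}
    (x : S → σ → K) (φ : S → K) : Prop where
  apx : Apx A R ℓ x φ
  int : ∀ s, A.valuation (φ s) ≤ 1

theorem ApxInt.zero : ApxInt A R ℓ x (fun _ => (0 : K)) :=
  ⟨Apx.zero, fun _ => by simp⟩

theorem ApxInt.add {φ ψ : S → K} (hφ : ApxInt A R ℓ x φ) (hψ : ApxInt A R ℓ x ψ) :
    ApxInt A R ℓ x (fun s => φ s + ψ s) :=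
  ⟨hφ.apx.add hψ.apx, fun s => Valuation.map_add_le _ (hφ.int s) (hψ.int s)⟩

theorem ApxInt.neg {φ : S → K} (hφ : ApxInt A R ℓ x φ) : ApxInt A R ℓ x (fun s => - φ s) :=
  ⟨hφ.apx.neg, fun s => by rw [Valuation.map_neg]; exact hφ.int s⟩

theorem ApxInt.mul (hR : ∀ c : R, A.valuation (c : K) ≤ 1)
    (hx : ∀ s i, A.valuation (x s i) ≤ 1)
    {φ ψ : S → K} (hφ : ApxInt A R ℓ x φ) (hψ : ApxInt A R ℓ x ψ) :
    ApxInt A R ℓ x (fun s => φ s * ψ s) :=
  ⟨Apx.mul hR hx hφ.apx hφ.int hψ.apx, fun s => by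
    rw [Valuation.map_mul]; exact mul_le_one' (hφ.int s) (hψ.int s)⟩

theorem ApxInt.one : ApxInt A R ℓ x (fun _ => (1 : K)) := by
  refine ⟨?_, fun _ => by simp⟩
  have := Apx.const (A := A) (ℓ := ℓ) (x := x) (1 : R)
  simpa using this

theorem ApxInt.pow (hR : ∀ c : R, A.valuation (c : K) ≤ 1)
    (hx : ∀ s i, A.valuation (x s i) ≤ 1)
    {φ : S → K} (hφ : ApxInt A R ℓ x φ) (k : ℕ) :
    ApxInt A R ℓ x (fun s => φ s ^ k) := by
  induction k with
  | zero => simpa using ApxInt.one (A := A) (R := R) (ℓ := ℓ) (x := x)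
  | succ k ih =>
    have := ApxInt.mul hR hx ih hφ
    simpa [pow_succ] using this

theorem ApxInt.sum {ι : Type*} (t : Finset ι) {φ : ι → S → K}
    (hφ : ∀ j ∈ t, ApxInt A R ℓ x (φ j)) :
    ApxInt A R ℓ x (fun s => ∑ j ∈ t, φ j s) := by
  classical
  induction t using Finset.induction_on with
  | empty => simpa using ApxInt.zero (A := A) (R := R) (ℓ := ℓ) (x := x)
  | insert a t ha ih =>
    have h1 := hφ a (Finset.mem_insert_self a t)
    have h2 := ih (fun j hj => hφ j (Finset.mem_insert_of_mem hj))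
    have := h1.add h2
    simpa [Finset.sum_insert ha] using this

end closure

end Fermat.Agent.H54.FFApx
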