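/-
P-FF, FF-G4 (row 622), helper54: inverses, substitution and simple Hensel roots in the class-`C`
calculus (valuation language, Mathlib only).
-/
import Fermat.Agent.H54.FF.ApxCore

set_option autoImplicit false
set_option linter.unusedSectionVars false
set_option linter.unusedVariables false

noncomputable section

namespace Fermat.Agent.H54.FFApx

open MvPolynomial

variable {K : Type*} [Field K] {A : ValuationSubring K} {R : Subring K}
  {ℓ : K} {S σ : Type*} {x : S → σ → K}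

/-- rank one + finiteness of the parameter set: a uniform exponent -/
theorem exists_pow_le
    (hrank : ∀ a : K, A.valuation a < 1 → ∃ n : ℕ, A.valuation a ^ n ≤ A.valuation ℓ)
    [Finite S] (f : S → K) (hf : ∀ s, A.valuation (f s) < 1) (M : ℕ) :
    ∃ J : ℕ, ∀ s, A.valuation (f s) ^ J ≤ A.valuation ℓ ^ M := by
  rcases isEmpty_or_nonempty S with hS | hS
  · exact ⟨0, fun s => (hS.false s).elim⟩
  · obtain ⟨s₀, hs₀⟩ := Finite.exists_max (fun s => A.valuation (f s))
    obtain ⟨n, hn⟩ := hrank (f s₀) (hf s₀)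
    refine ⟨n * M, fun s => ?_⟩
    calc A.valuation (f s) ^ (n * M) ≤ A.valuation (f s₀) ^ (n * M) :=
          pow_le_pow_left' (hs₀ s) _
      _ = (A.valuation (f s₀) ^ n) ^ M := pow_mul _ _ _
      _ ≤ A.valuation ℓ ^ M := pow_le_pow_left' hn _

/-- **INV.** -/
theorem Apx.inv (h : ApxHyp A R ℓ) [Finite S] (hx : ∀ s i, A.valuation (x s i) < 1)
    {φ : S → K} (hφ : Apx A R ℓ x φ) (hφ1 : ∀ s, A.valuation (φ s) = 1) :
    Apx A R ℓ x (fun s => (φ s)⁻¹) := by
  intro M
  rcases isEmpty_or_nonempty S with hS | hS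
  · exact ⟨0, fun s => (hS.false s).elim⟩
  obtain ⟨G, hG⟩ := hφ (M + 1)
  have hx' : ∀ s i, A.valuation (x s i) ≤ 1 := fun s i => (hx s i).le
  -- the values of `G` are units
  have hG1 : ∀ s, A.valuation (aeval (x s) G) = 1 := by
    intro s
    have hlt : A.valuation (φ s - aeval (x s) G) < A.valuation (φ s) := by
      rw [hφ1 s]
      exact lt_of_le_of_lt ((hG s).trans (pow_succ_le_self h.lt.le M)) h.lt
    have : aeval (x s) G = φ s - (φ s - aeval (x s) G) := by ring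
    rw [this, Valuation.map_sub_eq_of_lt_left _ hlt, hφ1 s]
  -- the constant term
  set c : R := constantCoeff G with hc
  have hc0 : ∀ s, A.valuation (aeval (x s) G - (c : K)) < 1 := by
    intro s
    have h0 : aeval (fun _ : σ => (0 : K)) G = (c : K) := by
      rw [aeval_zero']
      rfl
    rw [← h0]
    exact aeval_sub_aeval_lt h.sub (hx' s) (fun _ => by simp) (fun i => by simpa using hx s i) G
  have hc1 : A.valuation (c : K) = 1 := by
    obtain ⟨s₀⟩ := hS
    have hlt : A.valuation (aeval (x s₀) G - (c : K)) < A.valuation (aeval (x s₀) G) := by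
      rw [hG1 s₀]
      exact hc0 s₀
    have : (c : K) = aeval (x s₀) G - (aeval (x s₀) G - (c : K)) := by ring
    rw [this, Valuation.map_sub_eq_of_lt_left _ hlt, hG1 s₀]
  obtain ⟨c', hc'⟩ := h.sat c hc1
  have hcne : (c : K) ≠ 0 := by
    intro h0
    rw [h0, Valuation.map_zero] at hc1
    exact zero_ne_one hc1
  have hc'1 : A.valuation (c' : K) = 1 := by
    rw [hc', map_inv₀, hc1, inv_one]
  -- the polynomial `h = 1 - c⁻¹ G`
  set hp : MvPolynomial σ R := 1 - C c' * G with hhp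
  have hpe : ∀ s, aeval (x s) hp = (c' : K) * ((c : K) - aeval (x s) G) := by
    intro s
    rw [hhp, map_sub, map_one, map_mul, aeval_C]
    have : (algebraMap R K) c' = (c' : K) := rfl
    rw [this, hc']
    field_simp
  have hpv : ∀ s, A.valuation (aeval (x s) hp) < 1 := by
    intro s
    rw [hpe, Valuation.map_mul, hc'1, one_mul, Valuation.map_sub_swap]
    exact hc0 s
  obtain ⟨J, hJ⟩ := exists_pow_le h.rank (fun s => aeval (x s) hp) hpv M
  refine ⟨C c' * ∑ j ∈ Finset.range J, hp ^ j, fun s => ?_⟩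
  set g : K := aeval (x s) G with hg
  set e : K := aeval (x s) hp with he
  set Hx : K := aeval (x s) (C c' * ∑ j ∈ Finset.range J, hp ^ j) with hHx
  have hHxe : Hx = (c' : K) * ∑ j ∈ Finset.range J, e ^ j := by
    rw [hHx, map_mul, aeval_C, map_sum]
    have : (algebraMap R K) c' = (c' : K) := rfl
    rw [this]
    congr 1
    refine Finset.sum_congr rfl fun j _ => ?_
    rw [map_pow]
  have hee : e = 1 - (c' : K) * g := by
    rw [he, hhp, map_sub, map_one, map_mul, aeval_C]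
    rfl
  have hgH : g * Hx = 1 - e ^ J := by
    rw [hHxe, ← mul_neg_geom_sum e J, hee]
    ring
  have hφne : φ s ≠ 0 := by
    intro h0
    have := hφ1 s
    rw [h0, Valuation.map_zero] at this
    exact zero_ne_one this
  have hHx1 : A.valuation Hx ≤ 1 := val_aeval_le_one h.sub (hx' s) _
  have key : (φ s)⁻¹ - Hx = (φ s)⁻¹ * (e ^ J - (φ s - g) * Hx) := by
    have : e ^ J = 1 - g * Hx := by rw [hgH]; ring
    rw [this]
    field_simp
    ring
  rw [key, Valuation.map_mul, map_inv₀, hφ1 s, inv_one, one_mul]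
  refine Valuation.map_sub_le _ ?_ ?_
  · rw [Valuation.map_pow]
    exact hJ s
  · rw [Valuation.map_mul]
    calc A.valuation (φ s - g) * A.valuation Hx ≤ A.valuation ℓ ^ (M + 1) * 1 :=
          mul_le_mul' (hG s) hHx1
      _ = A.valuation ℓ ^ (M + 1) := mul_one _
      _ ≤ A.valuation ℓ ^ M := pow_succ_le_pow h.lt.le M

/-- **INV**, degenerate values allowed: it suffices that `φ s` and `(φ s)⁻¹` are integral
(then either all values are units, or all values vanish). -/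
theorem Apx.inv' (h : ApxHyp A R ℓ) [Finite S] (hx : ∀ s i, A.valuation (x s i) < 1)
    {φ : S → K} (hφ : Apx A R ℓ x φ)
    (hφ1 : ∀ s, A.valuation (φ s) ≤ 1 ∧ A.valuation (φ s)⁻¹ ≤ 1) :
    Apx A R ℓ x (fun s => (φ s)⁻¹) := by
  have hx' : ∀ s i, A.valuation (x s i) ≤ 1 := fun s i => (hx s i).le
  obtain ⟨G, hG⟩ := hφ 1
  set c : R := constantCoeff G with hc
  have hc0 : ∀ s, A.valuation (φ s - (c : K)) < 1 := by
    intro s
    have h0 : aeval (fun _ : σ => (0 : K)) G = (c : K) := by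
      rw [aeval_zero']
      rfl
    have h1 : A.valuation (aeval (x s) G - (c : K)) < 1 := by
      rw [← h0]
      exact aeval_sub_aeval_lt h.sub (hx' s) (fun _ => by simp)
        (fun i => by simpa using hx s i) G
    have h2 : A.valuation (φ s - aeval (x s) G) < 1 :=
      lt_of_le_of_lt (hG s) (by rw [pow_one]; exact h.lt)
    have : φ s - (c : K) = (φ s - aeval (x s) G) + (aeval (x s) G - (c : K)) := by ring
    rw [this]
    exact Valuation.map_add_lt _ h2 h1
  rcases (h.sub c).lt_or_eq with hlt | heq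
  · -- all values vanish
    have hz : ∀ s, φ s = 0 := by
      intro s
      by_contra hne
      have h1 : A.valuation (φ s) < 1 := by
        have : φ s = (φ s - (c : K)) + (c : K) := by ring
        rw [this]
        exact Valuation.map_add_lt _ (hc0 s) hlt
      have h2 := (hφ1 s).2
      rw [map_inv₀] at h2
      have hv0 : A.valuation (φ s) ≠ 0 := (Valuation.ne_zero_iff _).mpr hne
      have h3 : 1 ≤ A.valuation (φ s) := by
        have := mul_le_mul' h2 (le_refl (A.valuation (φ s)))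
        rwa [inv_mul_cancel₀ hv0, one_mul] at this
      exact absurd h1 (not_lt.mpr h3)
    have : (fun s => (φ s)⁻¹) = fun _ => (0 : K) := by
      funext s
      rw [hz s, inv_zero]
    rw [this]
    exact Apx.zero
  · -- all values are units
    refine Apx.inv h hx hφ fun s => ?_
    have hlt : A.valuation (φ s - (c : K)) < A.valuation (c : K) := by
      rw [heq]
      exact hc0 s
    have : φ s = (c : K) + (φ s - (c : K)) := by ring
    rw [this, Valuation.map_add_eq_of_lt_left _ hlt, heq]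

theorem ApxInt.inv (h : ApxHyp A R ℓ) [Finite S] (hx : ∀ s i, A.valuation (x s i) < 1)
    {φ : S → K} (hφ : Apx A R ℓ x φ) (hφ1 : ∀ s, A.valuation (φ s) = 1) :
    ApxInt A R ℓ x (fun s => (φ s)⁻¹) :=
  ⟨Apx.inv h hx hφ hφ1, fun s => by rw [map_inv₀, hφ1 s, inv_one]⟩

/-- **COMP.** -/
theorem Apx.comp (hR : ∀ c : R, A.valuation (c : K) ≤ 1) {τ : Type*}
    (hx : ∀ s i, A.valuation (x s i) ≤ 1) {ψ : S → τ → K}
    (hψi : ∀ s j, A.valuation (ψ s j) ≤ 1)
    (hψ : ∀ j, Apx A R ℓ x (fun s => ψ s j)) {φ : S → K} (hφ : Apx A R ℓ ψ φ) :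
    Apx A R ℓ x φ := by
  intro M
  obtain ⟨G, hG⟩ := hφ M
  choose H hH using fun j => hψ j M
  refine ⟨bind₁ H G, fun s => ?_⟩
  rw [aeval_bind₁]
  have : φ s - aeval (fun j => aeval (x s) (H j)) G =
      (φ s - aeval (ψ s) G) + (aeval (ψ s) G - aeval (fun j => aeval (x s) (H j)) G) := by
    ring
  rw [this]
  refine Valuation.map_add_le _ (hG s) ?_
  exact aeval_sub_aeval_le hR (hψi s) (fun j => val_aeval_le_one hR (hx s) (H j)) _
    (fun j => hH j s) G

/-! ### ROOT -/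

/-- the fixed-point iteration `T₀ = 0`, `T_{k+1} = -(φ₀ + ∑_{j ≥ 2} φ_j T_k^j) / φ₁` -/
def rootIter {d : ℕ} (φ : Fin (d + 2) → S → K) : ℕ → S → K
  | 0 => fun _ => 0
  | k + 1 => fun s =>
      -(φ 0 s + ∑ j : Fin d, φ j.succ.succ s * rootIter φ k s ^ ((j : ℕ) + 2)) * (φ 1 s)⁻¹

theorem pow_add_two_le {α : A.ValueGroup} (hα : α ≤ 1) (m : ℕ) : α ^ (m + 2) ≤ α := by
  rw [pow_succ]
  calc α ^ (m + 1) * α ≤ 1 * α := mul_le_mul' (pow_le_one' hα _) le_rfl
    _ = α := one_mul _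

theorem rootIter_val_le {d : ℕ} (φ : Fin (d + 2) → S → K) (α : A.ValueGroup) (hα : α ≤ 1)
    (hφ : ∀ j s, A.valuation (φ j s) ≤ 1) (hφ0 : ∀ s, A.valuation (φ 0 s) ≤ α)
    (hφ1 : ∀ s, A.valuation (φ 1 s) = 1) (k : ℕ) (s : S) :
    A.valuation (rootIter φ k s) ≤ α := by
  induction k with
  | zero => simp [rootIter]
  | succ k ih =>
    show A.valuation (-(φ 0 s + ∑ j : Fin d, φ j.succ.succ s * rootIter φ k s ^ ((j : ℕ) + 2))
      * (φ 1 s)⁻¹) ≤ α
    rw [Valuation.map_mul, map_inv₀, hφ1 s, inv_one, mul_one, Valuation.map_neg]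
    refine Valuation.map_add_le _ (hφ0 s) (Valuation.map_sum_le _ fun j _ => ?_)
    rw [Valuation.map_mul, Valuation.map_pow]
    calc A.valuation (φ j.succ.succ s) * A.valuation (rootIter φ k s) ^ ((j : ℕ) + 2)
        ≤ 1 * α ^ ((j : ℕ) + 2) := mul_le_mul' (hφ _ s) (pow_le_pow_left' ih _)
      _ = α ^ ((j : ℕ) + 2) := one_mul _
      _ ≤ α := pow_add_two_le hα _

theorem rootIter_apxInt (h : ApxHyp A R ℓ) [Finite S] (hx : ∀ s i, A.valuation (x s i) < 1)
    {d : ℕ} (φ : Fin (d + 2) → S → K) (hφa : ∀ j, Apx A R ℓ x (φ j))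
    (hφ : ∀ j s, A.valuation (φ j s) ≤ 1) (hφ1 : ∀ s, A.valuation (φ 1 s) = 1) (k : ℕ) :
    ApxInt A R ℓ x (rootIter φ k) := by
  have hx' : ∀ s i, A.valuation (x s i) ≤ 1 := fun s i => (hx s i).le
  induction k with
  | zero => exact ApxInt.zero
  | succ k ih =>
    have h0 : ApxInt A R ℓ x (φ 0) := ⟨hφa 0, hφ 0⟩
    have hs : ApxInt A R ℓ x
        (fun s => ∑ j : Fin d, φ j.succ.succ s * rootIter φ k s ^ ((j : ℕ) + 2)) :=
      ApxInt.sum Finset.univ fun j _ =>
        ApxInt.mul h.sub hx' ⟨hφa _, hφ _⟩ (ApxInt.pow h.sub hx' ih _)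
    have hi : ApxInt A R ℓ x (fun s => (φ 1 s)⁻¹) := ApxInt.inv h hx (hφa 1) hφ1
    exact ApxInt.mul h.sub hx' (h0.add hs).neg hi

theorem val_pow_sub_pow_le (a b : K) (α : A.ValueGroup) (ha : A.valuation a ≤ α)
    (hb : A.valuation b ≤ α) (hα : α ≤ 1) (m : ℕ) :
    A.valuation (a ^ (m + 2) - b ^ (m + 2)) ≤ A.valuation (a - b) * α := by
  induction m with
  | zero =>
    have : a ^ (0 + 2) - b ^ (0 + 2) = (a - b) * (a + b) := by ring
    rw [this, Valuation.map_mul]
    exact mul_le_mul' le_rfl (Valuation.map_add_le _ ha hb)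
  | succ m ih =>
    have : a ^ (m + 1 + 2) - b ^ (m + 1 + 2) =
        a * (a ^ (m + 2) - b ^ (m + 2)) + (a - b) * b ^ (m + 2) := by ring
    rw [this]
    refine Valuation.map_add_le _ ?_ ?_
    · rw [Valuation.map_mul]
      calc A.valuation a * A.valuation (a ^ (m + 2) - b ^ (m + 2))
          ≤ 1 * (A.valuation (a - b) * α) := mul_le_mul' (ha.trans hα) ih
        _ = _ := one_mul _
    · rw [Valuation.map_mul, Valuation.map_pow]
      exact mul_le_mul' le_rfl ((pow_le_pow_left' hb _).trans (pow_add_two_le hα _))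

theorem sum_fin_add_two {d : ℕ} (f : Fin (d + 2) → K) :
    ∑ j : Fin (d + 2), f j = f 0 + f 1 + ∑ j : Fin d, f j.succ.succ := by
  rw [Fin.sum_univ_succ, Fin.sum_univ_succ]
  have : (Fin.succ (0 : Fin (d + 1))) = (1 : Fin (d + 2)) := rfl
  rw [this]
  ring

theorem rootIter_step {d : ℕ} (φ : Fin (d + 2) → S → K) (ρ : S → K) (α β : A.ValueGroup)
    (hα : α ≤ 1)
    (hφ : ∀ j s, A.valuation (φ j s) ≤ 1) (hφ0 : ∀ s, A.valuation (φ 0 s) ≤ α)
    (hφ1 : ∀ s, A.valuation (φ 1 s) = 1) (hρ : ∀ s, A.valuation (ρ s) ≤ α)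
    (hE : ∀ s, A.valuation (∑ j : Fin (d + 2), φ j s * ρ s ^ (j : ℕ)) ≤ β) (k : ℕ) (s : S) :
    A.valuation (ρ s - rootIter φ (k + 1) s) ≤
      max β (A.valuation (ρ s - rootIter φ k s) * α) := by
  set T : K := rootIter φ k s with hT
  have hTα : A.valuation T ≤ α := rootIter_val_le φ α hα hφ hφ0 hφ1 k s
  have hφne : φ 1 s ≠ 0 := by
    intro h0
    have := hφ1 s
    rw [h0, Valuation.map_zero] at this
    exact zero_ne_one this
  have hsum := sum_fin_add_two (fun j : Fin (d + 2) => φ j s * ρ s ^ (j : ℕ))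
  simp only [Fin.val_zero, pow_zero, mul_one, Fin.val_one, pow_one, Fin.val_succ] at hsum
  have key : ρ s - rootIter φ (k + 1) s =
      (φ 1 s)⁻¹ * ((∑ j : Fin (d + 2), φ j s * ρ s ^ (j : ℕ)) -
        ∑ j : Fin d, φ j.succ.succ s * (ρ s ^ ((j : ℕ) + 2) - T ^ ((j : ℕ) + 2))) := by
    show ρ s - (-(φ 0 s + ∑ j : Fin d, φ j.succ.succ s * rootIter φ k s ^ ((j : ℕ) + 2))
      * (φ 1 s)⁻¹) = _
    rw [hsum]
    simp only [mul_sub, Finset.sum_sub_distrib]
    rw [← hT]
    field_simp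
    ring
  rw [key, Valuation.map_mul, map_inv₀, hφ1 s, inv_one, one_mul]
  refine Valuation.map_sub_le _ ((hE s).trans (le_max_left _ _)) ?_
  refine Valuation.map_sum_le _ fun j _ => ?_
  rw [Valuation.map_mul]
  calc A.valuation (φ j.succ.succ s) * A.valuation (ρ s ^ ((j : ℕ) + 2) - T ^ ((j : ℕ) + 2))
      ≤ 1 * (A.valuation (ρ s - T) * α) :=
        mul_le_mul' (hφ _ s) (val_pow_sub_pow_le _ _ α (hρ s) hTα hα _)
    _ = A.valuation (ρ s - T) * α := one_mul _
    _ ≤ _ := le_max_right _ _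

theorem rootIter_err {d : ℕ} (φ : Fin (d + 2) → S → K) (ρ : S → K) (α β : A.ValueGroup)
    (hα : α ≤ 1)
    (hφ : ∀ j s, A.valuation (φ j s) ≤ 1) (hφ0 : ∀ s, A.valuation (φ 0 s) ≤ α)
    (hφ1 : ∀ s, A.valuation (φ 1 s) = 1) (hρ : ∀ s, A.valuation (ρ s) ≤ α)
    (hE : ∀ s, A.valuation (∑ j : Fin (d + 2), φ j s * ρ s ^ (j : ℕ)) ≤ β) (k : ℕ) (s : S) :
    A.valuation (ρ s - rootIter φ k s) ≤ max β (α ^ k) := by
  induction k with
  | zero =>
    have : rootIter φ 0 s = 0 := rfl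
    rw [this, sub_zero, pow_zero]
    exact ((hρ s).trans hα).trans (le_max_right _ _)
  | succ k ih =>
    refine (rootIter_step φ ρ α β hα hφ hφ0 hφ1 hρ hE k s).trans ?_
    refine max_le (le_max_left _ _) ?_
    rcases le_max_iff.mp ih with h1 | h1
    · refine le_trans ?_ (le_max_left _ _)
      calc A.valuation (ρ s - rootIter φ k s) * α ≤ β * 1 := mul_le_mul' h1 hα
        _ = β := mul_one _
    · refine le_trans ?_ (le_max_right _ _)
      rw [pow_succ]
      exact mul_le_mul' h1 le_rfl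

/-- **ROOT.** -/
theorem Apx.root (h : ApxHyp A R ℓ) [Finite S] (hx : ∀ s i, A.valuation (x s i) < 1)
    (ρ : S → K) (hρ : ∀ s, A.valuation (ρ s) < 1)
    (H : ∀ M : ℕ, ∃ (d : ℕ) (φ : Fin (d + 2) → S → K),
      (∀ j, Apx A R ℓ x (φ j)) ∧ (∀ j s, A.valuation (φ j s) ≤ 1) ∧
      (∀ s, A.valuation (φ 0 s) < 1) ∧ (∀ s, A.valuation (φ 1 s) = 1) ∧
      ∀ s, A.valuation (∑ j : Fin (d + 2), φ j s * ρ s ^ (j : ℕ)) ≤ A.valuation ℓ ^ M) :
    Apx A R ℓ x ρ := by
  intro M
  rcases isEmpty_or_nonempty S with hS | hS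
  · exact ⟨0, fun s => (hS.false s).elim⟩
  obtain ⟨d, φ, hφa, hφ, hφ0, hφ1, hE⟩ := H M
  obtain ⟨s₁, hs₁⟩ := Finite.exists_max (fun s => A.valuation (ρ s))
  obtain ⟨s₂, hs₂⟩ := Finite.exists_max (fun s => A.valuation (φ 0 s))
  set α : A.ValueGroup := max (A.valuation (ρ s₁)) (A.valuation (φ 0 s₂)) with hα
  have hα1 : α < 1 := max_lt (hρ s₁) (hφ0 s₂)
  have hαρ : ∀ s, A.valuation (ρ s) ≤ α := fun s => (hs₁ s).trans (le_max_left _ _)
  have hαφ : ∀ s, A.valuation (φ 0 s) ≤ α := fun s => (hs₂ s).trans (le_max_right _ _)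
  obtain ⟨n, hn⟩ : ∃ n : ℕ, α ^ n ≤ A.valuation ℓ := by
    rcases max_choice (A.valuation (ρ s₁)) (A.valuation (φ 0 s₂)) with h1 | h1
    · obtain ⟨n, hn⟩ := h.rank (ρ s₁) (hρ s₁)
      exact ⟨n, by rw [hα, h1]; exact hn⟩
    · obtain ⟨n, hn⟩ := h.rank (φ 0 s₂) (hφ0 s₂)
      exact ⟨n, by rw [hα, h1]; exact hn⟩
  have hT := rootIter_apxInt h hx φ hφa hφ hφ1 (n * M)
  obtain ⟨G, hG⟩ := hT.apx M
  refine ⟨G, fun s => ?_⟩
  have herr := rootIter_err φ ρ α (A.valuation ℓ ^ M) hα1.le hφ hαφ hφ1 hαρ hE (n * M) s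
  have hpow : α ^ (n * M) ≤ A.valuation ℓ ^ M := by
    rw [pow_mul]
    exact pow_le_pow_left' hn _
  have herr' : A.valuation (ρ s - rootIter φ (n * M) s) ≤ A.valuation ℓ ^ M :=
    herr.trans (max_le le_rfl hpow)
  have : ρ s - aeval (x s) G =
      (ρ s - rootIter φ (n * M) s) + (rootIter φ (n * M) s - aeval (x s) G) := by ring
  rw [this]
  exact Valuation.map_add_le _ herr' (hG s)

end Fermat.Agent.H54.FFApx
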