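/-
P-FF, FF-G4 (row 622), helper54: the class-`C` calculus for `IsApprox`
(`Fermat.Agent.H72.FF.GeoBlocks`).

* `Fermat.Agent.H54.approxInv  : Fermat.Agent.H72.FF.ApproxInvStatement`
* `Fermat.Agent.H54.approxComp : Fermat.Agent.H72.FF.ApproxCompStatement`
* `Fermat.Agent.H54.approxRootFixed : Fermat.Agent.H54.ApproxRootFixedStatement`
  (the statement `ApproxRootStatement` with the unit hypothesis on `φ 1` corrected:
  `φ 1 s ≠ 0 ∧ (φ 1 s)⁻¹ ∈ A`; as literally stated, `(φ 1 s)⁻¹ ∈ A` allows `φ 1 s = 0`.)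

Also exported: the dictionary `ffapx_isApprox_iff` between `IsApprox` and the valuation-language
class `FFApx.Apx`, and the closure properties of `IsApprox` (`isApprox_const`, `isApprox_coord`,
`isApprox_add`, `isApprox_neg`, `isApprox_mul`, `isApprox_of_close`).
-/
import Fermat.Agent.H72.FF.GeoBlocks
import Fermat.Agent.H54.FF.ApxMain

set_option autoImplicit false
set_option linter.unusedSectionVars false
set_option linter.unusedVariables false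

noncomputable section

namespace Fermat.Agent.H54

open Fermat.Agent.H72.FF Fermat.Agent.H54.FFApx MvPolynomial

/-- divisibility by `ℓ^M` in `A` is a valuation inequality -/
theorem ffapx_cong_iff (A : ValuationSubring Qb) {ℓ : ℕ} (hℓ : ℓ.Prime) (M : ℕ) (z : Qb) :
    (∃ a ∈ A, z = (ℓ : Qb) ^ M * a) ↔ A.valuation z ≤ A.valuation (ℓ : Qb) ^ M := by
  have hne : ((ℓ : ℕ) : Qb) ^ M ≠ 0 := pow_ne_zero _ (Nat.cast_ne_zero.mpr hℓ.ne_zero)
  constructor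
  · rintro ⟨a, ha, rfl⟩
    rw [Valuation.map_mul, Valuation.map_pow]
    calc A.valuation (ℓ : Qb) ^ M * A.valuation a ≤ A.valuation (ℓ : Qb) ^ M * 1 :=
          mul_le_mul' le_rfl ((A.valuation_le_one_iff a).mpr ha)
      _ = _ := mul_one _
  · intro h
    refine ⟨z / (ℓ : Qb) ^ M, ?_, by field_simp⟩
    rw [← A.valuation_le_one_iff, map_div₀, Valuation.map_pow]
    have hv : A.valuation (ℓ : Qb) ^ M ≠ 0 := by
      rw [← Valuation.map_pow]
      exact (Valuation.ne_zero_iff _).mpr hne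
    have := mul_le_mul' h (le_refl (A.valuation (ℓ : Qb) ^ M)⁻¹)
    rwa [mul_inv_cancel₀ hv, ← div_eq_mul_inv] at this

/-- the dictionary between `IsApprox` and the valuation-language class -/
theorem ffapx_isApprox_iff (A : ValuationSubring Qb) {ℓ : ℕ} (hℓ : ℓ.Prime) {S : Type} {n : ℕ}
    (x : S → Fin n → Qb) (φ : S → Qb) :
    IsApprox ℓ A x φ ↔ Apx A (unrInt A) (ℓ : Qb) x φ := by
  have he : ∀ (s : S) (G' : MvPolynomial (Fin n) (unrInt A)),
      aeval (x s) G' = eval (x s) (MvPolynomial.map (unrInt A).subtype G') := by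
    intro s G'
    rw [eval_map, aeval_def]
    rfl
  constructor
  · intro h M
    obtain ⟨G, hGc, hG⟩ := h M
    obtain ⟨G', rfl⟩ : ∃ G' : MvPolynomial (Fin n) (unrInt A),
        MvPolynomial.map (unrInt A).subtype G' = G := by
      refine mem_range_map_iff_coeffs_subset.mpr ?_
      intro c hc
      obtain ⟨m, -, rfl⟩ := mem_coeffs_iff.mp (Finset.mem_coe.mp hc)
      exact ⟨⟨_, hGc m⟩, rfl⟩
    refine ⟨G', fun s => ?_⟩
    rw [he]
    exact (ffapx_cong_iff A hℓ M _).mp (hG s)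
  · intro h M
    obtain ⟨G', hG'⟩ := h M
    refine ⟨MvPolynomial.map (unrInt A).subtype G', fun m => ?_, fun s => ?_⟩
    · rw [coeff_map]
      exact (G'.coeff m).2
    · have := hG' s
      rw [he] at this
      exact (ffapx_cong_iff A hℓ M _).mpr this

/-- the standing hypotheses of the calculus hold for `ℚ̄`, `A` over `ℓ`, `R = unrInt A` -/
theorem ffapx_hyp (A : ValuationSubring Qb) {ℓ : ℕ} (hℓ : ℓ.Prime) (hA : A.LiesOverPrime ℓ) :
    ApxHyp A (unrInt A) (ℓ : Qb) where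
  sub c := (A.valuation_le_one_iff _).mpr c.2.1
  sat c hc := by
    refine ⟨⟨(c : Qb)⁻¹, ?_, ?_⟩, rfl⟩
    · rw [← A.valuation_le_one_iff, map_inv₀, hc, inv_one]
    · intro σ hσ
      rw [map_inv₀, c.2.2 σ hσ]
  lt := A.mem_nonunits_iff.mp hA
  rank a ha := by
    have haA : a ∈ A := (A.valuation_le_one_iff a).mp ha.le
    have hnu : ¬ IsUnit (⟨a, haA⟩ : A) := by
      rw [A.valuation_eq_one_iff]
      exact ha.ne
    obtain ⟨n, b, hb⟩ := Fermat.Agent.H18.rv_prime_dvd_pow A hℓ hA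
      Fermat.Agent.H18.rv_isAlgebraic_int_algebraicClosure hnu
    refine ⟨n, ?_⟩
    have h1 : a ^ n = (ℓ : Qb) * (b : Qb) := by
      have := congrArg (Subtype.val) hb
      simpa using this
    rw [← Valuation.map_pow, h1, Valuation.map_mul]
    calc A.valuation (ℓ : Qb) * A.valuation (b : Qb) ≤ A.valuation (ℓ : Qb) * 1 :=
          mul_le_mul' le_rfl (A.valuation_le_one b)
      _ = _ := mul_one _

/-! ### closure properties of `IsApprox` -/

section closure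

variable {A : ValuationSubring Qb} {ℓ : ℕ} {S : Type} {n : ℕ} {x : S → Fin n → Qb}

theorem isApprox_const (hℓ : ℓ.Prime) {c : Qb} (hc : c ∈ unrInt A) :
    IsApprox ℓ A x (fun _ => c) :=
  (ffapx_isApprox_iff A hℓ x _).mpr (Apx.const (⟨c, hc⟩ : unrInt A))

theorem isApprox_coord (hℓ : ℓ.Prime) (i : Fin n) : IsApprox ℓ A x (fun s => x s i) :=
  (ffapx_isApprox_iff A hℓ x _).mpr (Apx.coord i)

theorem isApprox_add (hℓ : ℓ.Prime) {φ ψ : S → Qb} (hφ : IsApprox ℓ A x φ)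
    (hψ : IsApprox ℓ A x ψ) : IsApprox ℓ A x (fun s => φ s + ψ s) :=
  (ffapx_isApprox_iff A hℓ x _).mpr
    (((ffapx_isApprox_iff A hℓ x _).mp hφ).add ((ffapx_isApprox_iff A hℓ x _).mp hψ))

theorem isApprox_neg (hℓ : ℓ.Prime) {φ : S → Qb} (hφ : IsApprox ℓ A x φ) :
    IsApprox ℓ A x (fun s => - φ s) :=
  (ffapx_isApprox_iff A hℓ x _).mpr ((ffapx_isApprox_iff A hℓ x _).mp hφ).neg

theorem isApprox_sub (hℓ : ℓ.Prime) {φ ψ : S → Qb} (hφ : IsApprox ℓ A x φ)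
    (hψ : IsApprox ℓ A x ψ) : IsApprox ℓ A x (fun s => φ s - ψ s) := by
  have := isApprox_add hℓ hφ (isApprox_neg hℓ hψ)
  simpa [sub_eq_add_neg] using this

theorem isApprox_mul (hℓ : ℓ.Prime) (hx : ∀ s i, x s i ∈ A) {φ ψ : S → Qb}
    (hφ : IsApprox ℓ A x φ) (hφi : ∀ s, φ s ∈ A) (hψ : IsApprox ℓ A x ψ) :
    IsApprox ℓ A x (fun s => φ s * ψ s) :=
  (ffapx_isApprox_iff A hℓ x _).mpr
    (Apx.mul (fun c : unrInt A => (A.valuation_le_one_iff _).mpr c.2.1)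
      (fun s i => (A.valuation_le_one_iff _).mpr (hx s i))
      ((ffapx_isApprox_iff A hℓ x _).mp hφ)
      (fun s => (A.valuation_le_one_iff _).mpr (hφi s))
      ((ffapx_isApprox_iff A hℓ x _).mp hψ))

/-- a function that is `ℓ^M`-close to an approximable function for every `M` is approximable -/
theorem isApprox_of_close (hℓ : ℓ.Prime) {φ : S → Qb}
    (h : ∀ M : ℕ, ∃ ψ : S → Qb, IsApprox ℓ A x ψ ∧
      ∀ s, ∃ a ∈ A, φ s - ψ s = (ℓ : Qb) ^ M * a) : IsApprox ℓ A x φ := by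
  refine (ffapx_isApprox_iff A hℓ x _).mpr (Apx.of_close fun M => ?_)
  obtain ⟨ψ, hψ, hc⟩ := h M
  exact ⟨ψ, (ffapx_isApprox_iff A hℓ x _).mp hψ, fun s => (ffapx_cong_iff A hℓ M _).mp (hc s)⟩

end closure

/-! ### the three statements -/

/-- **FF-G4a.** -/
theorem approxInv : ApproxInvStatement := by
  intro ℓ A hℓ hA S _ n x hx φ hφ hφ1
  rw [ffapx_isApprox_iff A hℓ] at hφ ⊢
  exact Apx.inv' (ffapx_hyp A hℓ hA) (fun s i => A.mem_nonunits_iff.mp (hx s i)) hφ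
    (fun s => ⟨(A.valuation_le_one_iff _).mpr (hφ1 s).1,
      (A.valuation_le_one_iff _).mpr (hφ1 s).2⟩)

/-- **FF-G4b.** -/
theorem approxComp : ApproxCompStatement := by
  intro ℓ A hℓ hA S _ n m x ψ hx hψi hψ φ hφ
  rw [ffapx_isApprox_iff A hℓ] at hφ ⊢
  have hψ' : ∀ j, Apx A (unrInt A) (ℓ : Qb) x (fun s => ψ s j) :=
    fun j => (ffapx_isApprox_iff A hℓ x _).mp (hψ j)
  exact Apx.comp (ffapx_hyp A hℓ hA).sub
    (fun s i => (A.mem_nonunits_iff.mp (hx s i)).le)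
    (fun s j => (A.valuation_le_one_iff _).mpr (hψi s j)) hψ' hφ

/-- **FF-G4c, corrected.** `ApproxRootStatement` with the unit hypothesis on `φ 1` stated
correctly (`φ 1 s ≠ 0 ∧ (φ 1 s)⁻¹ ∈ A`).  As literally stated in `GeoBlocks`, the hypothesis
`(φ 1 s)⁻¹ ∈ A` is satisfied by `φ 1 = 0`, which makes the hypotheses vacuous. -/
def ApproxRootFixedStatement : Prop :=
  ∀ (ℓ : ℕ) (A : ValuationSubring Qb), ℓ.Prime → A.LiesOverPrime ℓ →
    ∀ (S : Type) [Finite S] (n : ℕ) (x : S → Fin n → Qb), (∀ s i, x s i ∈ A.nonunits) →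
    ∀ ρ : S → Qb, (∀ s, ρ s ∈ A.nonunits) →
    (∀ M : ℕ, ∃ (d : ℕ) (φ : Fin (d + 2) → S → Qb),
      (∀ j, IsApprox ℓ A x (φ j)) ∧ (∀ j s, φ j s ∈ A) ∧
      (∀ s, φ 0 s ∈ A.nonunits) ∧ (∀ s, φ 1 s ≠ 0 ∧ (φ 1 s)⁻¹ ∈ A) ∧
      ∀ s, ∃ e ∈ A, ∑ j : Fin (d + 2), φ j s * ρ s ^ (j : ℕ) = (ℓ : Qb) ^ M * e) →
    IsApprox ℓ A x ρ

/-- **FF-G4c** (corrected form). -/
theorem approxRootFixed : ApproxRootFixedStatement := by
  intro ℓ A hℓ hA S _ n x hx ρ hρ H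
  rw [ffapx_isApprox_iff A hℓ]
  refine Apx.root (ffapx_hyp A hℓ hA) (fun s i => A.mem_nonunits_iff.mp (hx s i))
    ρ (fun s => A.mem_nonunits_iff.mp (hρ s)) fun M => ?_
  obtain ⟨d, φ, hφa, hφi, hφ0, hφ1, hE⟩ := H M
  refine ⟨d, φ, fun j => (ffapx_isApprox_iff A hℓ x _).mp (hφa j),
    fun j s => (A.valuation_le_one_iff _).mpr (hφi j s),
    fun s => A.mem_nonunits_iff.mp (hφ0 s), fun s => ?_,
    fun s => (ffapx_cong_iff A hℓ M _).mp (hE s)⟩
  have h1 : A.valuation (φ 1 s) ≤ 1 := (A.valuation_le_one_iff _).mpr (hφi 1 s)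
  have h2 : A.valuation (φ 1 s)⁻¹ ≤ 1 := (A.valuation_le_one_iff _).mpr (hφ1 s).2
  rw [map_inv₀] at h2
  have hv0 : A.valuation (φ 1 s) ≠ 0 := (Valuation.ne_zero_iff _).mpr (hφ1 s).1
  have h3 : 1 ≤ A.valuation (φ 1 s) := by
    have := mul_le_mul' h2 (le_refl (A.valuation (φ 1 s)))
    rwa [inv_mul_cancel₀ hv0, one_mul] at this
  exact le_antisymm h1 h3

/-- If `φ 1` is never zero, the literal hypotheses of `ApproxRootStatement` suffice. -/
theorem approxRoot_of_ne_zero (ℓ : ℕ) (A : ValuationSubring Qb) (hℓ : ℓ.Prime)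
    (hA : A.LiesOverPrime ℓ) (S : Type) [Finite S] (n : ℕ) (x : S → Fin n → Qb)
    (hx : ∀ s i, x s i ∈ A.nonunits) (ρ : S → Qb) (hρ : ∀ s, ρ s ∈ A.nonunits)
    (H : ∀ M : ℕ, ∃ (d : ℕ) (φ : Fin (d + 2) → S → Qb),
      (∀ j, IsApprox ℓ A x (φ j)) ∧ (∀ j s, φ j s ∈ A) ∧
      (∀ s, φ 0 s ∈ A.nonunits) ∧ (∀ s, φ 1 s ≠ 0) ∧ (∀ s, (φ 1 s)⁻¹ ∈ A) ∧
      ∀ s, ∃ e ∈ A, ∑ j : Fin (d + 2), φ j s * ρ s ^ (j : ℕ) = (ℓ : Qb) ^ M * e) :
    IsApprox ℓ A x ρ := by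
  refine approxRootFixed ℓ A hℓ hA S n x hx ρ hρ fun M => ?_
  obtain ⟨d, φ, h1, h2, h3, h4, h5, h6⟩ := H M
  exact ⟨d, φ, h1, h2, h3, fun s => ⟨h4 s, h5 s⟩, h6⟩

end Fermat.Agent.H54
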