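/-
P-FF, FF-G4 (row 622), helper54: further closure properties of `IsApprox`
(powers, finite sums and products, determinants, integrality of values).
-/
import Fermat.Agent.H54.FF.ApxFinal

set_option autoImplicit false
set_option linter.unusedSectionVars false
set_option linter.unusedVariables false

noncomputable section

namespace Fermat.Agent.H54

open Fermat.Agent.H72.FF Fermat.Agent.H54.FFApx MvPolynomial

namespace FFApx

variable {K : Type*} [Field K] {A : ValuationSubring K} {R : Subring K}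
  {ℓ : K} {S σ : Type*} {x : S → σ → K}

/-- finite sums of approximable functions (no integrality needed) -/
theorem Apx.sum {ι : Type*} (t : Finset ι) {φ : ι → S → K}
    (hφ : ∀ j ∈ t, Apx A R ℓ x (φ j)) : Apx A R ℓ x (fun s => ∑ j ∈ t, φ j s) := by
  classical
  induction t using Finset.induction_on with
  | empty => simpa using Apx.zero (A := A) (R := R) (ℓ := ℓ) (x := x)
  | insert a t ha ih =>
    have h1 := hφ a (Finset.mem_insert_self a t)
    have h2 := ih (fun j hj => hφ j (Finset.mem_insert_of_mem hj))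
    have := h1.add h2
    simpa [Finset.sum_insert ha] using this

/-- approximable functions of integral parameters are integral-valued -/
theorem Apx.int (hR : ∀ c : R, A.valuation (c : K) ≤ 1) (hℓ : A.valuation ℓ ≤ 1)
    (hx : ∀ s i, A.valuation (x s i) ≤ 1) {φ : S → K} (hφ : Apx A R ℓ x φ) (s : S) :
    A.valuation (φ s) ≤ 1 := by
  obtain ⟨G, hG⟩ := hφ 0
  have : φ s = (φ s - aeval (x s) G) + aeval (x s) G := by ring
  rw [this]
  refine Valuation.map_add_le _ ?_ (val_aeval_le_one hR (hx s) G)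
  have := hG s
  rwa [pow_zero] at this

theorem ApxInt.prod (hR : ∀ c : R, A.valuation (c : K) ≤ 1)
    (hx : ∀ s i, A.valuation (x s i) ≤ 1) {ι : Type*} (t : Finset ι) {φ : ι → S → K}
    (hφ : ∀ j ∈ t, ApxInt A R ℓ x (φ j)) :
    ApxInt A R ℓ x (fun s => ∏ j ∈ t, φ j s) := by
  classical
  induction t using Finset.induction_on with
  | empty => simpa using ApxInt.one (A := A) (R := R) (ℓ := ℓ) (x := x)
  | insert a t ha ih =>
    have h1 := hφ a (Finset.mem_insert_self a t)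
    have h2 := ih (fun j hj => hφ j (Finset.mem_insert_of_mem hj))
    have := ApxInt.mul hR hx h1 h2
    simpa [Finset.prod_insert ha] using this

theorem ApxInt.intCast (hR : ∀ c : R, A.valuation (c : K) ≤ 1) (m : ℤ) :
    ApxInt A R ℓ x (fun _ => (m : K)) := by
  have h1 := Apx.const (A := A) (ℓ := ℓ) (x := x) ((m : ℤ) : R)
  have h2 : (((m : ℤ) : R) : K) = (m : K) := by simp
  rw [h2] at h1
  refine ⟨h1, fun _ => ?_⟩
  rw [← h2]
  exact hR _

/-- determinants of matrices of integral approximable functions -/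
theorem ApxInt.det (hR : ∀ c : R, A.valuation (c : K) ≤ 1)
    (hx : ∀ s i, A.valuation (x s i) ≤ 1) {ι : Type*} [Fintype ι] [DecidableEq ι]
    (C : ι → ι → S → K) (hC : ∀ i j, ApxInt A R ℓ x (C i j)) :
    ApxInt A R ℓ x (fun s => Matrix.det (Matrix.of fun i j => C i j s)) := by
  have key : ∀ s, Matrix.det (Matrix.of fun i j => C i j s) =
      ∑ τ : Equiv.Perm ι, ((Equiv.Perm.sign τ : ℤ) : K) * ∏ i, C (τ i) i s := by
    intro s
    rw [Matrix.det_apply']
    rfl
  have : (fun s => Matrix.det (Matrix.of fun i j => C i j s)) =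
      fun s => ∑ τ : Equiv.Perm ι, ((Equiv.Perm.sign τ : ℤ) : K) * ∏ i, C (τ i) i s :=
    funext key
  rw [this]
  exact ApxInt.sum Finset.univ fun τ _ =>
    ApxInt.mul hR hx (ApxInt.intCast hR _) (ApxInt.prod hR hx Finset.univ fun i _ => hC (τ i) i)

end FFApx

section closure

variable {A : ValuationSubring Qb} {ℓ : ℕ} {S : Type} {n : ℕ} {x : S → Fin n → Qb}

/-- dictionary for integral-valued approximable functions -/
theorem ffapx_isApproxInt_iff (A : ValuationSubring Qb) {ℓ : ℕ} (hℓ : ℓ.Prime) {S : Type}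
    {n : ℕ} (x : S → Fin n → Qb) (φ : S → Qb) :
    (IsApprox ℓ A x φ ∧ ∀ s, φ s ∈ A) ↔ ApxInt A (unrInt A) (ℓ : Qb) x φ :=
  ⟨fun h => ⟨(ffapx_isApprox_iff A hℓ x φ).mp h.1,
      fun s => (A.valuation_le_one_iff _).mpr (h.2 s)⟩,
    fun h => ⟨(ffapx_isApprox_iff A hℓ x φ).mpr h.apx,
      fun s => (A.valuation_le_one_iff _).mp (h.int s)⟩⟩

theorem ffapx_sub (A : ValuationSubring Qb) (c : unrInt A) : A.valuation (c : Qb) ≤ 1 :=
  (A.valuation_le_one_iff _).mpr c.2.1

/-- approximable functions of integral parameters are integral-valued -/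
theorem isApprox_mem (hℓ : ℓ.Prime) (hA : A.LiesOverPrime ℓ) (hx : ∀ s i, x s i ∈ A)
    {φ : S → Qb} (hφ : IsApprox ℓ A x φ) (s : S) : φ s ∈ A :=
  (A.valuation_le_one_iff _).mp
    (FFApx.Apx.int (ffapx_sub A) (A.mem_nonunits_iff.mp hA).le
      (fun s i => (A.valuation_le_one_iff _).mpr (hx s i))
      ((ffapx_isApprox_iff A hℓ x φ).mp hφ) s)

theorem isApprox_zero (hℓ : ℓ.Prime) : IsApprox ℓ A x (fun _ => (0 : Qb)) :=
  (ffapx_isApprox_iff A hℓ x _).mpr Apx.zero

theorem isApprox_one (hℓ : ℓ.Prime) : IsApprox ℓ A x (fun _ => (1 : Qb)) :=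
  isApprox_const hℓ (unrInt A).one_mem

theorem isApprox_intCast (hℓ : ℓ.Prime) (m : ℤ) : IsApprox ℓ A x (fun _ => (m : Qb)) :=
  isApprox_const hℓ (intCast_mem (unrInt A) m)

theorem isApprox_sum (hℓ : ℓ.Prime) {ι : Type*} (t : Finset ι) {φ : ι → S → Qb}
    (hφ : ∀ j ∈ t, IsApprox ℓ A x (φ j)) : IsApprox ℓ A x (fun s => ∑ j ∈ t, φ j s) :=
  (ffapx_isApprox_iff A hℓ x _).mpr
    (FFApx.Apx.sum t fun j hj => (ffapx_isApprox_iff A hℓ x _).mp (hφ j hj))

theorem isApprox_pow (hℓ : ℓ.Prime) (hx : ∀ s i, x s i ∈ A) {φ : S → Qb}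
    (hφ : IsApprox ℓ A x φ) (hφi : ∀ s, φ s ∈ A) (k : ℕ) :
    IsApprox ℓ A x (fun s => φ s ^ k) :=
  ((ffapx_isApproxInt_iff A hℓ x _).mpr
    (ApxInt.pow (ffapx_sub A) (fun s i => (A.valuation_le_one_iff _).mpr (hx s i))
      ((ffapx_isApproxInt_iff A hℓ x _).mp ⟨hφ, hφi⟩) k)).1

theorem isApprox_prod (hℓ : ℓ.Prime) (hx : ∀ s i, x s i ∈ A) {ι : Type*} (t : Finset ι)
    {φ : ι → S → Qb} (hφ : ∀ j ∈ t, IsApprox ℓ A x (φ j)) (hφi : ∀ j ∈ t, ∀ s, φ j s ∈ A) :
    IsApprox ℓ A x (fun s => ∏ j ∈ t, φ j s) :=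
  ((ffapx_isApproxInt_iff A hℓ x _).mpr
    (FFApx.ApxInt.prod (ffapx_sub A) (fun s i => (A.valuation_le_one_iff _).mpr (hx s i)) t
      fun j hj => (ffapx_isApproxInt_iff A hℓ x _).mp ⟨hφ j hj, hφi j hj⟩)).1

/-- determinants of matrices of integral approximable functions are approximable (and
integral) -/
theorem isApprox_det (hℓ : ℓ.Prime) (hx : ∀ s i, x s i ∈ A) {ι : Type*} [Fintype ι]
    [DecidableEq ι] (C : ι → ι → S → Qb) (hC : ∀ i j, IsApprox ℓ A x (C i j))
    (hCi : ∀ i j s, C i j s ∈ A) :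
    IsApprox ℓ A x (fun s => Matrix.det (Matrix.of fun i j => C i j s)) ∧
      ∀ s, Matrix.det (Matrix.of fun i j => C i j s) ∈ A :=
  (ffapx_isApproxInt_iff A hℓ x _).mpr
    (FFApx.ApxInt.det (ffapx_sub A) (fun s i => (A.valuation_le_one_iff _).mpr (hx s i)) C
      fun i j => (ffapx_isApproxInt_iff A hℓ x _).mp ⟨hC i j, hCi i j⟩)

/-- inverses, in un-bundled form -/
theorem isApprox_inv (hℓ : ℓ.Prime) (hA : A.LiesOverPrime ℓ) [Finite S]
    (hx : ∀ s i, x s i ∈ A.nonunits) {φ : S → Qb} (hφ : IsApprox ℓ A x φ)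
    (hφ1 : ∀ s, φ s ∈ A ∧ (φ s)⁻¹ ∈ A) : IsApprox ℓ A x (fun s => (φ s)⁻¹) :=
  approxInv ℓ A hℓ hA S n x hx φ hφ hφ1

end closure

end Fermat.Agent.H54
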